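import Fermat.Agent.S41.WP.Abs

set_option autoImplicit false

/-!
# S41 / WP : the Weil pairing `weil h m : Vm K F m → Vm K F m → K`
-/

noncomputable section

namespace Fermat.Agent.S41.WP

open AlgebraicCurve
open Fermat.Agent.S24 (IsFF1)
open Fermat.Agent.DIV (valAt)
open Fermat.Agent.S19 (evD IsDiv WRStatement)
open Fermat.Agent.S19.Pair
open Fermat.Agent.GES (Vm divBy)

variable {K F : Type} [Field K] [Field F] [Algebra K F] [IsAlgClosed K] [CharZero K]
  (h : IsFF1 K F) {m : ℕ} [NeZero m]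

/-- coercion. -/
abbrev cf (f : divBy K F m) : F := ((f : Fˣ) : F)

omit [IsAlgClosed K] [CharZero K] [NeZero m] in
theorem exists_of_mk_eq {f f' : divBy K F m} (hf : Vm.mk f = Vm.mk f') :
    ∃ s : F, s ≠ 0 ∧ cf f' = cf f * s ^ m := by
  obtain ⟨w, hw⟩ := (Vm.mk_eq_mk_iff f' f).1 hf.symm
  refine ⟨w, w.ne_zero, ?_⟩
  have h1 : ((w ^ m : Fˣ) : F) = cf f' / cf f := by rw [hw]; simp
  rw [Units.val_pow_eq_pow_val] at h1
  rw [h1, mul_div_cancel₀ _ (f : Fˣ).ne_zero]

include h in
/-- the moving lemma. -/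
theorem exists_disj (g : divBy K F m) (T : Finset (Place K F)) :
    ∃ g' : divBy K F m, Vm.mk g' = Vm.mk g ∧ ∀ v ∈ T, v.ord (cf g') = 0 := by
  obtain ⟨u, hu, hord⟩ := Fermat.Agent.S19.ND.exists_ord_eq h T fun v => -(v.ord (cf g) / (m : ℤ))
  refine ⟨g * ⟨Units.mk0 u hu ^ m, Fermat.Agent.GES.pow_mem_divBy m _⟩, ?_, fun v hv => ?_⟩
  · rw [Vm.mk_mul, add_eq_left, Vm.mk_eq_zero_iff]
    exact ⟨Units.mk0 u hu, rfl⟩
  · have h1 : cf (g * ⟨Units.mk0 u hu ^ m, Fermat.Agent.GES.pow_mem_divBy m _⟩) = cf g * u ^ m := by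
      simp [cf]
    rw [h1, v.ord_mul (g : Fˣ).ne_zero (pow_ne_zero m hu), Fermat.Agent.S24.ord_pow, hord v hv,
      mul_neg, Int.mul_ediv_cancel' (g.2 v), add_neg_cancel]

theorem disj_of_support {f g : F} (hg : ∀ v ∈ (dvf h f).support, v.ord g = 0) :
    Disj (K := K) f g := by
  intro v
  by_cases hv : v ∈ (dvf h f).support
  · exact Or.inr (hg v hv)
  · left
    rw [← dvf_apply h]
    exact Finsupp.notMem_support_iff.1 hv

theorem W_congr_left' (hWR : WRStatement) {f f' g : divBy K F m} (hf : Vm.mk f = Vm.mk f')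
    (hd : Disj (K := K) (cf f) (cf g)) (hd' : Disj (K := K) (cf f') (cf g)) :
    W h m (cf f) (cf g) = W h m (cf f') (cf g) := by
  obtain ⟨s, hs, hfs⟩ := exists_of_mk_eq hf
  exact W_congr_left h hWR (inD_coe f) (inD_coe f') (inD_coe g) hs hfs hd hd'

theorem W_congr_right' (hWR : WRStatement) {f g g' : divBy K F m} (hg : Vm.mk g = Vm.mk g')
    (hd : Disj (K := K) (cf f) (cf g)) (hd' : Disj (K := K) (cf f) (cf g')) :
    W h m (cf f) (cf g) = W h m (cf f) (cf g') := by
  have h1 := W_symm h (m := m) (f : Fˣ).ne_zero (g : Fˣ).ne_zero hd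
  have h2 := W_symm h (m := m) (f : Fˣ).ne_zero (g' : Fˣ).ne_zero hd'
  have h3 := W_congr_left' h hWR hg hd.symm hd'.symm
  have n := W_ne_zero h (m := m) (g' : Fˣ).ne_zero (f : Fˣ).ne_zero hd'.symm
  rw [h3] at h1
  exact mul_right_cancel₀ n (h1.trans h2.symm)

theorem W_congr (hWR : WRStatement) {f f' g g' : divBy K F m} (hf : Vm.mk f = Vm.mk f')
    (hg : Vm.mk g = Vm.mk g')
    (hd : Disj (K := K) (cf f) (cf g)) (hd' : Disj (K := K) (cf f') (cf g')) :
    W h m (cf f) (cf g) = W h m (cf f') (cf g') := by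
  classical
  obtain ⟨g₁, hg₁, hT⟩ := exists_disj h g ((dvf h (cf f)).support ∪ (dvf h (cf f')).support)
  have d1 : Disj (K := K) (cf f) (cf g₁) :=
    disj_of_support h fun v hv => hT v (Finset.mem_union_left _ hv)
  have d2 : Disj (K := K) (cf f') (cf g₁) :=
    disj_of_support h fun v hv => hT v (Finset.mem_union_right _ hv)
  rw [W_congr_right' h hWR hg₁.symm hd d1, W_congr_left' h hWR hf d1 d2,
    W_congr_right' h hWR (hg₁.trans hg) d2 hd']

/-- a representative. -/
def rep (a : Vm K F m) : divBy K F m := (Vm.mk_surjective a).choose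

omit [IsAlgClosed K] [CharZero K] [NeZero m] in
theorem mk_rep (a : Vm K F m) : Vm.mk (rep a) = a := (Vm.mk_surjective a).choose_spec

/-- a representative of `b` disjoint from `rep a`. -/
def rep2 (a b : Vm K F m) : divBy K F m :=
  (exists_disj h (rep b) (dvf h (cf (rep a))).support).choose

theorem mk_rep2 (a b : Vm K F m) : Vm.mk (rep2 h a b) = b :=
  (exists_disj h (rep b) (dvf h (cf (rep a))).support).choose_spec.1.trans (mk_rep b)

theorem disj_rep2 (a b : Vm K F m) : Disj (K := K) (cf (rep a)) (cf (rep2 h a b)) :=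
  disj_of_support h (exists_disj h (rep b) (dvf h (cf (rep a))).support).choose_spec.2

variable (m) in
/-- **the Weil pairing**. -/
def weil (a b : Vm K F m) : K := W h m (cf (rep a)) (cf (rep2 h a b))

theorem weil_mk (hWR : WRStatement) (f g : divBy K F m) (hd : Disj (K := K) (cf f) (cf g)) :
    weil h m (Vm.mk f) (Vm.mk g) = W h m (cf f) (cf g) :=
  W_congr h hWR (mk_rep _) (mk_rep2 h _ _) (disj_rep2 h _ _) hd

theorem weil_ne_zero (a b : Vm K F m) : weil h m a b ≠ 0 :=
  W_ne_zero h (Units.ne_zero _) (Units.ne_zero _) (disj_rep2 h a b)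

include h in
/-- disjoint representatives of three classes. -/
theorem exists_reps (a a' b : Vm K F m) : ∃ f f' g : divBy K F m, Vm.mk f = a ∧ Vm.mk f' = a' ∧
    Vm.mk g = b ∧ Disj (K := K) (cf f) (cf g) ∧ Disj (K := K) (cf f') (cf g) := by
  classical
  obtain ⟨g, hg, hT⟩ := exists_disj h (rep b)
    ((dvf h (cf (rep a))).support ∪ (dvf h (cf (rep a'))).support)
  exact ⟨rep a, rep a', g, mk_rep a, mk_rep a', hg.trans (mk_rep b),
    disj_of_support h fun v hv => hT v (Finset.mem_union_left _ hv),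
    disj_of_support h fun v hv => hT v (Finset.mem_union_right _ hv)⟩

theorem weil_symm (hWR : WRStatement) (a b : Vm K F m) : weil h m a b * weil h m b a = 1 := by
  obtain ⟨f, -, g, rfl, -, rfl, hd, -⟩ := exists_reps h a a b
  rw [weil_mk h hWR f g hd, weil_mk h hWR g f hd.symm]
  exact W_symm h (Units.ne_zero _) (Units.ne_zero _) hd

theorem weil_add_left (hWR : WRStatement) (a a' b : Vm K F m) :
    weil h m (a + a') b = weil h m a b * weil h m a' b := by
  obtain ⟨f, f', g, rfl, rfl, rfl, hd, hd'⟩ := exists_reps h a a' b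
  have hd2 : Disj (K := K) (cf (f * f')) (cf g) := by
    intro v
    rcases hd v with h0 | h0
    · rcases hd' v with h1 | h1
      · left
        have : cf (f * f') = cf f * cf f' := by simp [cf]
        rw [this, v.ord_mul (Units.ne_zero _) (Units.ne_zero _), h0, h1, add_zero]
      · exact Or.inr h1
    · exact Or.inr h0
  rw [← Vm.mk_mul, weil_mk h hWR _ g hd2, weil_mk h hWR f g hd, weil_mk h hWR f' g hd']
  have : cf (f * f') = cf f * cf f' := by simp [cf]
  rw [this]
  exact W_mul_left h (inD_coe f) (inD_coe f') (Units.ne_zero _) hd hd'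

theorem weil_add_right (hWR : WRStatement) (a b b' : Vm K F m) :
    weil h m a (b + b') = weil h m a b * weil h m a b' := by
  have h1 := weil_symm h hWR a (b + b')
  have h2 := weil_symm h hWR a b
  have h3 := weil_symm h hWR a b'
  rw [weil_add_left h hWR] at h1
  have n1 := weil_ne_zero h b a
  have n2 := weil_ne_zero h b' a
  apply mul_right_cancel₀ (mul_ne_zero n1 n2)
  rw [h1]
  calc (1 : K) = (weil h m a b * weil h m b a) * (weil h m a b' * weil h m b' a) := by
        rw [h2, h3, one_mul]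
    _ = _ := by ring

theorem weil_zero_left (hWR : WRStatement) (b : Vm K F m) : weil h m 0 b = 1 := by
  have h1 := weil_add_left h hWR 0 0 b
  rw [add_zero] at h1
  exact (mul_eq_left₀ (weil_ne_zero h 0 b)).1 h1.symm

theorem weil_zero_right (hWR : WRStatement) (a : Vm K F m) : weil h m a 0 = 1 := by
  have h1 := weil_add_right h hWR a 0 0
  rw [add_zero] at h1
  exact (mul_eq_left₀ (weil_ne_zero h a 0)).1 h1.symm

theorem weil_nsmul_left (hWR : WRStatement) (n : ℕ) (a b : Vm K F m) :
    weil h m (n • a) b = weil h m a b ^ n := by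
  induction n with
  | zero => rw [zero_smul, weil_zero_left h hWR, pow_zero]
  | succ n ih => rw [succ_nsmul, weil_add_left h hWR, ih, pow_succ]

theorem weil_nsmul_right (hWR : WRStatement) (n : ℕ) (a b : Vm K F m) :
    weil h m a (n • b) = weil h m a b ^ n := by
  induction n with
  | zero => rw [zero_smul, weil_zero_right h hWR, pow_zero]
  | succ n ih => rw [succ_nsmul, weil_add_right h hWR, ih, pow_succ]

theorem weil_pow (hWR : WRStatement) (a b : Vm K F m) : weil h m a b ^ m = 1 := by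
  rw [← weil_nsmul_left h hWR, Vm.nsmul_eq_zero, weil_zero_left h hWR]

end Fermat.Agent.S41.WP
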