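import Mathlib

set_option autoImplicit false

/-!
# S41 / WP : from a `μ_p`-valued bi-multiplicative map to a bi-additive map with values in `ZMod p`
-/

noncomputable section

namespace Fermat.Agent.S41.WP

variable {K : Type*} [Field K] {p : ℕ} [NeZero p] {ζ : K}

theorem zeta_pow_val_add (hζ : IsPrimitiveRoot ζ p) (a b : ZMod p) :
    ζ ^ (a + b).val = ζ ^ a.val * ζ ^ b.val := by
  rw [ZMod.val_add, ← pow_add, ← pow_eq_pow_mod _ hζ.pow_eq_one]

theorem zeta_pow_val_inj (hζ : IsPrimitiveRoot ζ p) {a b : ZMod p}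
    (h : ζ ^ a.val = ζ ^ b.val) : a = b :=
  ZMod.val_injective p (hζ.pow_inj (ZMod.val_lt a) (ZMod.val_lt b) h)

theorem exists_zeta_pow (hζ : IsPrimitiveRoot ζ p) {x : K} (hx : x ^ p = 1) :
    ∃ a : ZMod p, ζ ^ a.val = x := by
  obtain ⟨i, hi, rfl⟩ := hζ.eq_pow_of_pow_eq_one hx
  exact ⟨(i : ZMod p), by rw [ZMod.val_natCast_of_lt hi]⟩

/-- the logarithm of a bi-multiplicative map. -/
theorem exists_biadd (hζ : IsPrimitiveRoot ζ p) {A B : Type*} [AddCommGroup A] [AddCommGroup B]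
    (e : A → B → K) (hl : ∀ a a' b, e (a + a') b = e a b * e a' b)
    (hr : ∀ a b b', e a (b + b') = e a b * e a b') (hp : ∀ a b, e a b ^ p = 1) :
    ∃ E : A →+ B →+ ZMod p, ∀ a b, ζ ^ (E a b).val = e a b := by
  choose L hL using fun a b => exists_zeta_pow hζ (hp a b)
  let E1 : A → B →+ ZMod p := fun a => AddMonoidHom.mk' (L a) (by
    intro b b'
    apply zeta_pow_val_inj hζ
    rw [zeta_pow_val_add hζ, hL, hL, hL, hr])
  refine ⟨AddMonoidHom.mk' E1 ?_, fun a b => hL a b⟩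
  intro a a'
  ext b
  apply zeta_pow_val_inj hζ
  show ζ ^ (L (a + a') b).val = ζ ^ (L a b + L a' b).val
  rw [zeta_pow_val_add hζ, hL, hL, hL, hl]

end Fermat.Agent.S41.WP
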