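import Fermat.Agent.S41.WP.Weil
import Fermat.Agent.S41.WP.Log
import Fermat.Agent.S19.ND.Main
import Fermat.Agent.NEW.Hecke
import Fermat.Agent.S30.Roots

set_option autoImplicit false

/-!
# S41 / WP : the Weil pairing on `V_m(N)`: Galois, Hecke, non degeneracy
-/

noncomputable section

namespace Fermat.Agent.S41.WP

open AlgebraicCurve ModularCurve
open Fermat.Agent.S24 (Kb FN IsFF1 isFF1_FN)
open Fermat.Agent.DIV (valAt)
open Fermat.Agent.S19 (evD IsDiv WRStatement)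
open Fermat.Agent.S19.Pair
open Fermat.Agent.GES
open Fermat.Agent.S17.WMW (aG)

variable (N : ℕ) [NeZero N] {m : ℕ} [NeZero m]

omit [NeZero N] [NeZero m] in
theorem disj_smul {K F : Type} [Field K] [Field F] [Algebra K F] (g : SemilinearAut K F) {f f' : F}
    (hd : Disj (K := K) f f') : Disj (K := K) (g • f) (g • f') := by
  intro v
  have h1 := SemilinearAut.ord_smul g (g⁻¹ • v) f
  have h2 := SemilinearAut.ord_smul g (g⁻¹ • v) f'
  rw [smul_inv_smul] at h1 h2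
  rw [h1, h2]
  exact hd _

theorem weil_rhoV (hWR : WRStatement) (σ : GQ) (a b : VN N m) :
    weil (isFF1_FN N) m (rhoV N m σ a) (rhoV N m σ b) = σ (weil (isFF1_FN N) m a b) := by
  obtain ⟨f, -, g, rfl, -, rfl, hd, -⟩ := exists_reps (isFF1_FN N) a a b
  rw [rhoV_mk, rhoV_mk, weil_mk _ hWR f g hd]
  have hd' : Disj (K := Kb) (cf (⟨galU N σ f, galU_mem N m σ f f.2⟩ : DN N m))
      (cf (⟨galU N σ g, galU_mem N m σ g g.2⟩ : DN N m)) := disj_smul (aG N σ) hd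
  rw [weil_mk _ hWR _ _ hd']
  exact W_smul (isFF1_FN N) (aG N σ) (cf f) (cf g)

theorem rhoV_inv_apply (σ : GQ) (x : VN N m) : rhoV N m σ (rhoV N m σ⁻¹ x) = x := by
  rw [← Module.End.mul_apply, ← map_mul, mul_inv_cancel, map_one, Module.End.one_apply]

theorem weil_TV (hWR : WRStatement) {ℓ : ℕ} (hℓ : ℓ.Prime) (hℓNm : ¬ ℓ ∣ N * m) (y z : VN N m) :
    weil (isFF1_FN N) m (TV N m ℓ y) z = weil (isFF1_FN N) m y (TV N m ℓ z) := by
  obtain ⟨A, σ, hA, hσ⟩ := S54.exists_frob ℓ hℓ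
  have hm : ¬ ℓ ∣ m := fun hd => hℓNm (Dvd.dvd.mul_left hd N)
  have hfr : ∀ a b : VN N m, σ (weil (isFF1_FN N) m a b) = weil (isFF1_FN N) m a b ^ ℓ :=
    fun a b => S30.frobenius_rootOfUnity hℓ A hA σ hσ m hm _ (weil_pow _ hWR a b)
  rw [NEW.TV_eq_frob N m ℓ hℓ hℓNm A hA σ hσ, NEW.TV_eq_frob N m ℓ hℓ hℓNm A hA σ hσ,
    weil_add_left _ hWR, weil_add_right _ hWR, weil_nsmul_left _ hWR, weil_nsmul_right _ hWR]
  have e1 : weil (isFF1_FN N) m (rhoV N m σ y) z = weil (isFF1_FN N) m y (rhoV N m σ⁻¹ z) ^ ℓ := by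
    rw [← hfr, ← weil_rhoV N hWR, rhoV_inv_apply]
  have e2 : weil (isFF1_FN N) m (rhoV N m σ⁻¹ y) z ^ ℓ = weil (isFF1_FN N) m y (rhoV N m σ z) := by
    rw [← hfr, ← weil_rhoV N hWR, rhoV_inv_apply]
  rw [e1, e2, mul_comm]

theorem weil_nd (hWR : WRStatement) (a : VN N m) (ha : ∀ b, weil (isFF1_FN N) m a b = 1) :
    a = 0 := by
  classical
  obtain ⟨f, rfl⟩ := Vm.mk_surjective a
  set h := isFF1_FN N with hh
  set D := dv h m (cf f) with hD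
  have hm0 : 0 < m := Nat.pos_of_ne_zero (NeZero.ne m)
  have hWRc : S19.ND.WRfor (C24.isFF1_FN N) := fun f g Df Dg hf hg hd =>
    hWR _ (C24.FN N) (C24.isFF1_FN N) f g Df Dg hf hg hd
  have := S19.ND.infinite_place h
  obtain ⟨o, ho⟩ := Infinite.exists_notMem_finset D.support
  have hT : S19.ND.Triv h m D (cf f) := by
    intro y hy
    obtain ⟨E₀, rfl⟩ := Pic0.mk_surjective y
    obtain ⟨u, hu, hord⟩ := S19.ND.exists_ord_eq h D.support
      (fun v => - (E₀ : Divisor Kb (FN N)) v)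
    obtain ⟨U, hU⟩ := S19.ND.exists_isDv h hu
    have hUdeg : U ∈ Divisor.degZero (K := Kb) (F := FN N) :=
      Divisor.mem_degZero.2 (hU.degree h)
    have hE : Pic0.mk (E₀ + ⟨U, hUdeg⟩) = Pic0.mk E₀ := by
      rw [Pic0.mk_add, (S19.ND.mk_eq_zero_iff ⟨U, hUdeg⟩).2 ⟨u, hU⟩, add_zero]
    have hmE : Pic0.mk ((m : ℤ) • (E₀ + ⟨U, hUdeg⟩)) = 0 := by
      have : Pic0.mk ((m : ℤ) • (E₀ + ⟨U, hUdeg⟩)) = (m : ℤ) • Pic0.mk (E₀ + ⟨U, hUdeg⟩) := rfl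
      rw [this, hE, hy]
    obtain ⟨φ, hφ⟩ := (S19.ND.mk_eq_zero_iff _).1 hmE
    have hφ' : IsDiv φ ((m : ℤ) • ((E₀ + ⟨U, hUdeg⟩ : Divisor.degZero (K := Kb) (F := FN N)) :
        Divisor Kb (FN N))) := hφ
    have hdis : ∀ v, D v ≠ 0 →
        ((E₀ + ⟨U, hUdeg⟩ : Divisor.degZero (K := Kb) (F := FN N)) : Divisor Kb (FN N)) v = 0 := by
      intro v hv
      show ((E₀ : Divisor Kb (FN N)) + U) v = 0
      rw [Finsupp.add_apply, ← hU.2 v, hord v (Finsupp.mem_support_iff.2 hv), add_neg_cancel]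
    refine ⟨E₀ + ⟨U, hUdeg⟩, φ, hE, hφ, hdis, ?_⟩
    have hφD : Units.mk0 φ hφ.1 ∈ DN N m := by
      intro v
      show (m : ℤ) ∣ v.ord φ
      rw [hφ'.2 v, Finsupp.smul_apply, smul_eq_mul]
      exact dvd_mul_right _ _
    have hdj : Disj (K := Kb) (cf f) (cf (⟨Units.mk0 φ hφ.1, hφD⟩ : DN N m)) := by
      intro v
      by_cases hv : D v = 0
      · left
        have h1 := (isDiv_dv h (inD_coe f)).2 v
        rw [h1, Finsupp.smul_apply, ← hD, hv, smul_zero]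
      · right
        show v.ord φ = 0
        rw [hφ'.2 v, Finsupp.smul_apply, hdis v hv, smul_zero]
    have h1 := ha (Vm.mk ⟨Units.mk0 φ hφ.1, hφD⟩)
    rw [weil_mk h hWR _ _ hdj] at h1
    unfold W at h1
    have e1 : dv h m (cf (⟨Units.mk0 φ hφ.1, hφD⟩ : DN N m)) =
        ((E₀ + ⟨U, hUdeg⟩ : Divisor.degZero (K := Kb) (F := FN N)) : Divisor Kb (FN N)) :=
      dv_eq_of_isDiv h hφ'
    rw [e1, ← hD, div_eq_one_iff_eq (evD_ne_zero h (hdj.symm.unitOn h hφ.1))] at h1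
    exact h1
  obtain ⟨g, hg⟩ := S19.ND.nd_Kb N hWRc hm0 (degree_dv h (inD_coe f)) (isDiv_dv h (inD_coe f))
    (Finsupp.notMem_support_iff.1 ho) hT
  have hg' : IsDiv g D := hg
  obtain ⟨c, hc, hfc⟩ := isDiv_exists_const h (isDiv_zpow hg' (m : ℤ)) (isDiv_dv h (inD_coe f))
  obtain ⟨c', hc'⟩ := IsAlgClosed.exists_pow_nat_eq c hm0
  refine Vm.mk_eq_zero_of_pow_eq (NeZero.ne m) f (algebraMap Kb (FN N) c' * g) ?_
  rw [mul_pow, ← map_pow, hc']
  rw [zpow_natCast] at hfc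
  exact hfc.symm

end Fermat.Agent.S41.WP
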