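import Fermat.Agent.S41.WP.Weil
import Fermat.Agent.S19.WR.NormDiv

set_option autoImplicit false
set_option linter.unusedSectionVars false

/-!
# S41 / WP : the pairing with a pulled back class is trivial on the kernel of the norm
-/

noncomputable section

namespace Fermat.Agent.S41.WP

open AlgebraicCurve
open Fermat.Agent.S24 (IsFF1)
open Fermat.Agent.S19 (evD IsDiv WRStatement)
open Fermat.Agent.S19.Pair
open Fermat.Agent.GES (Vm divBy)

variable {K F F' : Type} [Field K] [IsAlgClosed K] [CharZero K] [Field F] [Field F'] [Algebra K F]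
  [Algebra K F'] [Algebra F F'] [IsScalarTower K F F'] [FiniteDimensional F F']
  [Algebra.IsIntegral F F']

theorem dv_algebraMap [HasPrincipalDivisors K F'] (hF : IsFF1 K F) (hF' : IsFF1 K F') {m : ℕ}
    {f : F} (hf : InD (K := K) m f) :
    dv hF' m (algebraMap F F' f) = Divisor.pullback F' (dv hF m f) := by
  ext w
  rw [dv_apply, Divisor.pullback_apply, dv_apply, w.ord_restrict, Int.mul_ediv_assoc _ (hf.2 _)]

theorem weil_pull_eq_one (hWR : WRStatement) (hF : IsFF1 K F) (hF' : IsFF1 K F') {m : ℕ} [NeZero m]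
    (g : divBy K F' m) (u : Vm K F m) (pull : Vm K F m → Vm K F' m)
    (hpull : ∀ f : divBy K F m, ∃ f' : divBy K F' m,
      cf f' = algebraMap F F' (cf f) ∧ pull (Vm.mk f) = Vm.mk f')
    (w : F) (hw : w ^ m = Algebra.norm F (cf g)) : weil hF' m (Vm.mk g) (pull u) = 1 := by
  classical
  have : HasPrincipalDivisors K F' := Fermat.Agent.RL.hasPrincipalDivisors hF'
  obtain ⟨f, hf, hT⟩ := exists_disj hF (rep u)
    ((dvf hF' (cf g)).support.image fun w => w.restrict F)
  obtain ⟨f', hf', hp⟩ := hpull f
  have hres : ∀ w : Place K F', w.ord (cf g) = 0 ∨ (w.restrict F).ord (cf f) = 0 := by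
    intro w
    by_cases hw : w ∈ (dvf hF' (cf g)).support
    · exact Or.inr (hT _ (Finset.mem_image_of_mem _ hw))
    · left
      rw [← dvf_apply hF']
      exact Finsupp.notMem_support_iff.1 hw
  have hd : Disj (K := K) (cf g) (cf f') := by
    intro w
    rcases hres w with h0 | h0
    · exact Or.inl h0
    · right
      rw [hf', w.ord_restrict, h0, mul_zero]
  rw [← mk_rep u, ← hf, hp, weil_mk hF' hWR g f' hd]
  unfold W
  rw [hf', dv_algebraMap hF hF' (inD_coe f),
    Fermat.Agent.S19.WR.adj hF hF' (NeZero.ne m) (isDiv_dv hF' (inD_coe g))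
      (isDiv_dv hF (inD_coe f)) hw.symm (fun w => by
        rcases hres w with h0 | h0
        · left; rw [dv_apply, h0, Int.zero_ediv]
        · right; rw [dv_apply, h0, Int.zero_ediv])]
  refine div_self (evD_ne_zero hF' ?_)
  have := hd.symm.unitOn (m := m) hF' (Units.ne_zero _)
  rwa [hf'] at this

end Fermat.Agent.S41.WP
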