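import Fermat.Agent.S41.WP.Conc
import Fermat.Agent.S41.WP.Proj
import Fermat.Agent.S41.Defs

set_option autoImplicit false

/-!
# S41 / WP : task T4' = (E4)
-/

noncomputable section

namespace Fermat.Agent.S41.WP

open AlgebraicCurve ModularCurve
open Fermat.Agent.S24 (Kb FN IsFF1 isFF1_FN)
open Fermat.Agent.S19 (WRStatement)
open Fermat.Agent.GES Fermat.Agent.NEW

variable (N q : ℕ) [NeZero N] [NeZero q] {m : ℕ} [NeZero m]

theorem weil_aS (hWR : WRStatement) (y : VN (N * q) m) (hy : alphaV N q m y = 0) (u : VN N m) :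
    weil (isFF1_FN (N * q)) m y (aS N q m u) = 1 := by
  obtain ⟨g, rfl⟩ := Vm.mk_surjective y
  obtain ⟨w, hw⟩ := (alphaV_mk_eq_zero_iff N q m g).1 hy
  letI := algA N q
  haveI := isScalarTower_along (heckeAlphaBar Kb N q)
  haveI := finiteDimensional_algA N q
  haveI : Algebra.IsIntegral (FN N) (FN (N * q)) := Algebra.IsIntegral.of_finite _ _
  exact weil_pull_eq_one hWR (isFF1_FN N) (isFF1_FN (N * q)) g u (aS N q m)
    (fun f => ⟨⟨alphaU N q f, alphaU_mem N q m f f.2⟩, rfl, rfl⟩) w hw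

theorem weil_bS (hWR : WRStatement) (y : VN (N * q) m) (hy : betaV N q m y = 0) (u : VN N m) :
    weil (isFF1_FN (N * q)) m y (bS N q m u) = 1 := by
  obtain ⟨g, rfl⟩ := Vm.mk_surjective y
  obtain ⟨w, hw⟩ := (betaV_mk_eq_zero_iff N q m g).1 hy
  letI := algB N q
  haveI := isScalarTower_along (heckeBetaBar Kb N q)
  haveI := finiteDimensional_algB N q
  haveI : Algebra.IsIntegral (FN N) (FN (N * q)) := Algebra.IsIntegral.of_finite _ _
  exact weil_pull_eq_one hWR (isFF1_FN N) (isFF1_FN (N * q)) g u (bS N q m)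
    (fun f => ⟨⟨betaU N q f, betaU_mem N q m f f.2⟩, rfl, rfl⟩) w hw

/-- **(E4)**. -/
theorem e4 (hWR : WRStatement) (p : ℕ) [NeZero p] : E4 N q p := by
  obtain ⟨ζ, hζ⟩ := S30.roots_exists_prim p (NeZero.ne p)
  set h := isFF1_FN (N * q) with hh
  obtain ⟨E, hE⟩ := exists_biadd hζ (weil h p) (weil_add_left h hWR) (weil_add_right h hWR)
    (weil_pow h hWR)
  have h0 : ∀ a b, weil h p a b = 1 → E a b = 0 := by
    intro a b hab
    apply zeta_pow_val_inj hζ
    rw [hE, hab, ZMod.val_zero, pow_zero]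
  refine ⟨E, fun y hy => ?_, fun y hy u => h0 _ _ (weil_aS N q hWR y hy u),
    fun y hy u => h0 _ _ (weil_bS N q hWR y hy u), fun ℓ hℓ hℓN y z => ?_⟩
  · by_contra hcon
    push_neg at hcon
    refine hy (weil_nd (N * q) hWR y fun b => ?_)
    rw [← hE, hcon b, ZMod.val_zero, pow_zero]
  · apply zeta_pow_val_inj hζ
    rw [hE, hE]
    exact weil_TV (N * q) hWR hℓ hℓN y z

end Fermat.Agent.S41.WP
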