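import Fermat.Agent.S19.Pair.Core
import Fermat.Agent.S19.ND.Move
import Fermat.Agent.GES.Kummer

set_option autoImplicit false

/-!
# S41 / WP : the Weil pairing on Kummer classes `Vm K F m`  (abstract function fields)

`weil h m [f] [g] = f((div g)/m) / g((div f)/m)` for `f`, `g` with disjoint divisors.
-/

noncomputable section

namespace Fermat.Agent.S41.WP

open AlgebraicCurve
open Fermat.Agent.S24 (IsFF1)
open Fermat.Agent.DIV (valAt)
open Fermat.Agent.S19 (evD IsDiv WRStatement)
open Fermat.Agent.S19.Pair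
open Fermat.Agent.GES (Vm divBy)

variable {K F : Type} [Field K] [Field F] [Algebra K F] [IsAlgClosed K] [CharZero K]
  (h : IsFF1 K F) (m : ℕ)

/-- the divisor of `f`. -/
def dvf (f : F) : Divisor K F :=
  open scoped Classical in
  if hf : f = 0 then 0 else (Fermat.Agent.RL.exists_div h hf).choose

theorem dvf_apply (f : F) (v : Place K F) : dvf h f v = v.ord f := by
  unfold dvf
  split_ifs with hf
  · rw [hf, Place.ord_zero]; rfl
  · exact (Fermat.Agent.RL.exists_div h hf).choose_spec.1 v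

/-- `(div f) / m`. -/
def dv (f : F) : Divisor K F := (dvf h f).mapRange (· / (m : ℤ)) (by simp)

theorem dv_apply (f : F) (v : Place K F) : dv h m f v = v.ord f / (m : ℤ) := by
  unfold dv
  rw [Finsupp.mapRange_apply, dvf_apply]

/-- `f ≠ 0` and `m ∣ div f`. -/
def InD (f : F) : Prop := f ≠ 0 ∧ ∀ v : Place K F, (m : ℤ) ∣ v.ord f

omit [IsAlgClosed K] [CharZero K] in
theorem InD.mul {m : ℕ} {f g : F} (hf : InD (K := K) m f) (hg : InD (K := K) m g) :
    InD (K := K) m (f * g) :=
  ⟨mul_ne_zero hf.1 hg.1, fun v => by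
    rw [v.ord_mul hf.1 hg.1]; exact dvd_add (hf.2 v) (hg.2 v)⟩

omit [IsAlgClosed K] [CharZero K] in
theorem inD_coe {m : ℕ} (f : divBy K F m) : InD (K := K) m ((f : Fˣ) : F) :=
  ⟨(f : Fˣ).ne_zero, f.2⟩

variable {m}

theorem isDiv_dv {f : F} (hf : InD (K := K) m f) : IsDiv f ((m : ℤ) • dv h m f) :=
  ⟨hf.1, fun v => by
    rw [Finsupp.smul_apply, dv_apply, smul_eq_mul, Int.mul_ediv_cancel' (hf.2 v)]⟩

theorem degree_dv [NeZero m] {f : F} (hf : InD (K := K) m f) : Divisor.degree (dv h m f) = 0 := by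
  have h1 := isDiv_degree_eq_zero h (isDiv_dv h hf)
  rw [map_zsmul, smul_eq_mul] at h1
  exact (mul_eq_zero.1 h1).resolve_left (by exact_mod_cast NeZero.ne m)

theorem dv_mul {f g : F} (hf : InD (K := K) m f) (hg : InD (K := K) m g) :
    dv h m (f * g) = dv h m f + dv h m g := by
  ext v
  rw [Finsupp.add_apply, dv_apply, dv_apply, dv_apply, v.ord_mul hf.1 hg.1,
    Int.add_ediv_of_dvd_left (hf.2 v)]

theorem dv_eq_of_isDiv [NeZero m] {f : F} {D : Divisor K F} (hf : IsDiv f ((m : ℤ) • D)) :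
    dv h m f = D := by
  ext v
  rw [dv_apply, hf.2, Finsupp.smul_apply, smul_eq_mul,
    Int.mul_ediv_cancel_left _ (by exact_mod_cast NeZero.ne m)]

theorem dv_smul (g : SemilinearAut K F) (f : F) : dv h m (g • f) = g • dv h m f := by
  ext v
  have h1 := SemilinearAut.ord_smul g (g⁻¹ • v) f
  rw [smul_inv_smul] at h1
  rw [SemilinearAut.divisor_smul_apply, dv_apply, dv_apply, h1]

/-- disjoint divisors. -/
def Disj (f g : F) : Prop := ∀ v : Place K F, v.ord f = 0 ∨ v.ord g = 0

omit [IsAlgClosed K] [CharZero K] in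
theorem Disj.symm {f g : F} (hd : Disj (K := K) f g) : Disj (K := K) g f := fun v => (hd v).symm

theorem Disj.dvz {f g : F} (hd : Disj (K := K) f g) (v : Place K F) :
    dv h m f v = 0 ∨ dv h m g v = 0 := by
  rcases hd v with h0 | h0
  · left; rw [dv_apply, h0, Int.zero_ediv]
  · right; rw [dv_apply, h0, Int.zero_ediv]

theorem Disj.unitOn {f g : F} (hd : Disj (K := K) f g) (hf : f ≠ 0) : UnitOn (dv h m g) f :=
  ⟨hf, fun v hv => (hd v).resolve_right fun h0 => hv (by rw [dv_apply, h0, Int.zero_ediv])⟩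

variable (m) in
/-- the Weil symbol. -/
def W (f g : F) : K := evD h (dv h m g) f / evD h (dv h m f) g

theorem W_ne_zero {f g : F} (hf : f ≠ 0) (hg : g ≠ 0) (hd : Disj (K := K) f g) :
    W h m f g ≠ 0 :=
  div_ne_zero (evD_ne_zero h (hd.unitOn h hf)) (evD_ne_zero h (hd.symm.unitOn h hg))

theorem W_symm {f g : F} (hf : f ≠ 0) (hg : g ≠ 0) (hd : Disj (K := K) f g) :
    W h m f g * W h m g f = 1 := by
  unfold W
  have n1 := evD_ne_zero h (hd.unitOn (m := m) h hf)
  have n2 := evD_ne_zero h (hd.symm.unitOn (m := m) h hg)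
  field_simp

theorem W_mul_left {f f' g : F} (hf : InD (K := K) m f) (hf' : InD (K := K) m f') (hg : g ≠ 0)
    (hd : Disj (K := K) f g) (hd' : Disj (K := K) f' g) :
    W h m (f * f') g = W h m f g * W h m f' g := by
  unfold W
  rw [evD_mul h (hd.unitOn h hf.1) (hd'.unitOn h hf'.1), dv_mul h hf hf',
    evD_add h (hd.symm.unitOn h hg) (hd'.symm.unitOn h hg), mul_div_mul_comm]

theorem W_smul (g : SemilinearAut K F) (f f' : F) :
    W h m (g • f) (g • f') = SemilinearAut.baseAut g (W h m f f') := by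
  unfold W
  rw [dv_smul, dv_smul, evD_smul, evD_smul, map_div₀]

/-- independence of the representative, first variable. -/
theorem W_congr_left [NeZero m] (hWR : WRStatement) {f f' g s : F} (hf : InD (K := K) m f)
    (hf' : InD (K := K) m f') (hg : InD (K := K) m g) (hs : s ≠ 0) (hfs : f' = f * s ^ m)
    (hd : Disj (K := K) f g) (hd' : Disj (K := K) f' g) : W h m f g = W h m f' g := by
  have hh : IsDiv s (dv h m f' - dv h m f) := by
    refine ⟨hs, fun v => ?_⟩
    have hm0 : (m : ℤ) ≠ 0 := by exact_mod_cast NeZero.ne m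
    rw [Finsupp.sub_apply, dv_apply, dv_apply, hfs, v.ord_mul hf.1 (pow_ne_zero m hs),
      Fermat.Agent.S24.ord_pow, Int.add_mul_ediv_left _ _ hm0]
    ring
  have key := weil_indep h hWR (degree_dv h hg) (degree_dv h hf') hh (isDiv_dv h hf)
    (isDiv_dv h hf') (isDiv_dv h hg) (isDiv_dv h hg) (hd.dvz h) (hd'.dvz h)
  unfold W
  rw [div_eq_div_iff (evD_ne_zero h (hd.symm.unitOn h hg.1))
    (evD_ne_zero h (hd'.symm.unitOn h hg.1))]
  exact key

end Fermat.Agent.S41.WP
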