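import Fermat.Agent.S41.WP.TVAdj
import Fermat.Agent.S41.Defs

set_option autoImplicit false

/-!
# S41, task T4': from a multiplicative `μ_p`-valued pairing to `E4` (logarithm + packaging)
-/

noncomputable section

namespace Fermat.Agent.S41.WP

open Fermat.Agent.S24 (Kb FN)
open Fermat.Agent.GES Fermat.Agent.NEW

section log

variable (p : ℕ) [Fact p.Prime]

theorem exists_prim_root : ∃ ζ : Kb, IsPrimitiveRoot ζ p := by
  haveI : NeZero ((p : ℕ) : Kb) := ⟨by exact_mod_cast (Fact.out : p.Prime).ne_zero⟩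
  exact HasEnoughRootsOfUnity.exists_primitiveRoot Kb p

/-- a primitive `p`-th root of unity. -/
def zetaP : Kb := (exists_prim_root p).choose

theorem zetaP_spec : IsPrimitiveRoot (zetaP p) p := (exists_prim_root p).choose_spec

theorem exists_log (x : Kb) (hx : x ^ p = 1) : ∃ k : ZMod p, x = zetaP p ^ k.val := by
  obtain ⟨i, hi, rfl⟩ := (zetaP_spec p).eq_pow_of_pow_eq_one hx
  refine ⟨(i : ZMod p), ?_⟩
  rw [ZMod.val_natCast, Nat.mod_eq_of_lt hi]

/-- the logarithm `μ_p → ZMod p` (junk `0` outside `μ_p`). -/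
def logP (x : Kb) : ZMod p := if hx : x ^ p = 1 then (exists_log p x hx).choose else 0

theorem logP_spec (x : Kb) (hx : x ^ p = 1) : x = zetaP p ^ (logP p x).val := by
  rw [logP, dif_pos hx]
  exact (exists_log p x hx).choose_spec

theorem zetaP_pow_val_inj (a b : ZMod p) (h : zetaP p ^ a.val = zetaP p ^ b.val) : a = b :=
  ZMod.val_injective p ((zetaP_spec p).pow_inj (ZMod.val_lt a) (ZMod.val_lt b) h)

theorem zetaP_pow_val_add (a b : ZMod p) :
    zetaP p ^ (a + b).val = zetaP p ^ a.val * zetaP p ^ b.val := by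
  rw [← pow_add, ZMod.val_add]
  exact (pow_eq_pow_mod _ (zetaP_spec p).pow_eq_one).symm

theorem logP_mul (x y : Kb) (hx : x ^ p = 1) (hy : y ^ p = 1) :
    logP p (x * y) = logP p x + logP p y := by
  apply zetaP_pow_val_inj
  rw [zetaP_pow_val_add, ← logP_spec p x hx, ← logP_spec p y hy,
    ← logP_spec p (x * y) (by rw [mul_pow, hx, hy, one_mul])]

theorem logP_one : logP p 1 = 0 := by
  apply zetaP_pow_val_inj
  rw [← logP_spec p 1 (one_pow p), ZMod.val_zero, pow_zero]

theorem logP_eq_zero_iff (x : Kb) (hx : x ^ p = 1) : logP p x = 0 ↔ x = 1 := by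
  constructor
  · intro h
    rw [logP_spec p x hx, h, ZMod.val_zero, pow_zero]
  · rintro rfl
    exact logP_one p

end log

/-- the additive pairing attached to a multiplicative one. -/
def addPair (p : ℕ) [Fact p.Prime] {V : Type*} [AddCommGroup V] (w : V → V → Kb)
    (hadd_l : ∀ a b c, w (a + b) c = w a c * w b c)
    (hadd_r : ∀ a b c, w a (b + c) = w a b * w a c)
    (hpow : ∀ a b, w a b ^ p = 1) : V →+ V →+ ZMod p :=
  AddMonoidHom.mk' (fun a => AddMonoidHom.mk' (fun b => logP p (w a b))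
      (fun b c => by rw [hadd_r, logP_mul p _ _ (hpow _ _) (hpow _ _)]))
    (fun a b => by
      ext c
      show logP p (w (a + b) c) = logP p (w a c) + logP p (w b c)
      rw [hadd_l, logP_mul p _ _ (hpow _ _) (hpow _ _)])

theorem addPair_apply (p : ℕ) [Fact p.Prime] {V : Type*} [AddCommGroup V] (w : V → V → Kb)
    (hadd_l : ∀ a b c, w (a + b) c = w a c * w b c)
    (hadd_r : ∀ a b c, w a (b + c) = w a b * w a c)
    (hpow : ∀ a b, w a b ^ p = 1) (a b : V) :
    addPair p w hadd_l hadd_r hpow a b = logP p (w a b) := rfl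

/-- **packaging of T4'**. -/
theorem e4_of_weil (N q p : ℕ) [NeZero N] [NeZero q] [Fact p.Prime]
    (w : VN (N * q) p → VN (N * q) p → Kb)
    (hadd_l : ∀ a b c, w (a + b) c = w a c * w b c)
    (hadd_r : ∀ a b c, w a (b + c) = w a b * w a c)
    (hpow : ∀ a b, w a b ^ p = 1)
    (hgal : ∀ (σ : GQ) a b, w (rhoV (N * q) p σ a) (rhoV (N * q) p σ b) = σ (w a b))
    (hnd : ∀ y, y ≠ 0 → ∃ z, w y z ≠ 1)
    (hA : ∀ y, alphaV N q p y = 0 → ∀ u, w y (aS N q p u) = 1)
    (hB : ∀ y, betaV N q p y = 0 → ∀ u, w y (bS N q p u) = 1) : E4 N q p := by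
  refine ⟨addPair p w hadd_l hadd_r hpow, ?_, ?_, ?_, ?_⟩
  · intro y hy
    obtain ⟨z, hz⟩ := hnd y hy
    exact ⟨z, fun h => hz ((logP_eq_zero_iff p _ (hpow _ _)).mp h)⟩
  · intro y hy u
    rw [addPair_apply, hA y hy u, logP_one]
  · intro y hy u
    rw [addPair_apply, hB y hy u, logP_one]
  · intro ℓ hℓ h y z
    rw [addPair_apply, addPair_apply, weil_TV_abs (N * q) p ℓ hℓ h w hadd_l hadd_r hpow hgal]

end Fermat.Agent.S41.WP
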