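import Fermat.Agent.NEW.Hecke
import Fermat.Agent.S31.RootsOfUnity

set_option autoImplicit false

/-!
# S41, task T4' (ii): a Galois equivariant `μ_m`-valued pairing on `V_m(M)` is Hecke self-adjoint

`T_ℓ = σ + ℓ σ⁻¹` (`NEW.TV_eq_frob`) and `σ ζ = ζ ^ ℓ` on `μ_m` for a Frobenius `σ` at `ℓ ∤ M m`.
-/

noncomputable section

namespace Fermat.Agent.S41.WP

open Fermat.Agent.S24 (Kb FN)
open Fermat.Agent.GES Fermat.Agent.NEW

section abs

variable {V : Type*} [AddCommGroup V] (w : V → V → Kb)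

theorem tvadj_zero_left {m : ℕ} (hadd_l : ∀ a b c, w (a + b) c = w a c * w b c)
    (hpow : ∀ a b, w a b ^ m = 1) (hm : m ≠ 0) (c : V) : w 0 c = 1 := by
  have h := hadd_l 0 0 c
  rw [add_zero] at h
  have h0 : w 0 c ≠ 0 := by
    intro h0
    have := hpow 0 c
    rw [h0, zero_pow hm] at this
    exact zero_ne_one this
  exact (mul_eq_left₀ h0).mp h.symm

theorem tvadj_zero_right {m : ℕ} (hadd_r : ∀ a b c, w a (b + c) = w a b * w a c)
    (hpow : ∀ a b, w a b ^ m = 1) (hm : m ≠ 0) (a : V) : w a 0 = 1 := by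
  have h := hadd_r a 0 0
  rw [add_zero] at h
  have h0 : w a 0 ≠ 0 := by
    intro h0
    have := hpow a 0
    rw [h0, zero_pow hm] at this
    exact zero_ne_one this
  exact (mul_eq_left₀ h0).mp h.symm

theorem tvadj_nsmul_left {m : ℕ} (hadd_l : ∀ a b c, w (a + b) c = w a c * w b c)
    (hpow : ∀ a b, w a b ^ m = 1) (hm : m ≠ 0) (n : ℕ) (a c : V) : w (n • a) c = w a c ^ n := by
  induction n with
  | zero => rw [zero_smul, pow_zero, tvadj_zero_left w hadd_l hpow hm]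
  | succ n ih => rw [succ_nsmul, hadd_l, ih, pow_succ]

theorem tvadj_nsmul_right {m : ℕ} (hadd_r : ∀ a b c, w a (b + c) = w a b * w a c)
    (hpow : ∀ a b, w a b ^ m = 1) (hm : m ≠ 0) (n : ℕ) (a c : V) : w a (n • c) = w a c ^ n := by
  induction n with
  | zero => rw [zero_smul, pow_zero, tvadj_zero_right w hadd_r hpow hm]
  | succ n ih => rw [succ_nsmul, hadd_r, ih, pow_succ]

end abs

/-- **(ii)**, multiplicative form. -/
theorem weil_TV_abs (M m ℓ : ℕ) [NeZero M] [NeZero m] (hℓ : ℓ.Prime) (h : ¬ ℓ ∣ M * m)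
    (w : VN M m → VN M m → Kb)
    (hadd_l : ∀ a b c, w (a + b) c = w a c * w b c)
    (hadd_r : ∀ a b c, w a (b + c) = w a b * w a c)
    (hpow : ∀ a b, w a b ^ m = 1)
    (hgal : ∀ (σ : GQ) a b, w (rhoV M m σ a) (rhoV M m σ b) = σ (w a b))
    (y z : VN M m) : w (TV M m ℓ y) z = w y (TV M m ℓ z) := by
  obtain ⟨A, σ, hA, hσ⟩ := S54.exists_frob ℓ hℓ
  have hm : m ≠ 0 := NeZero.ne m
  have hℓm : ¬ ℓ ∣ m := fun hd => h (Dvd.dvd.mul_left hd _)
  have hfr : ∀ a b, σ (w a b) = w a b ^ ℓ := fun a b =>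
    S31.frob_apply_root hℓ hA hσ hℓm (hpow a b)
  have hinv : ∀ x : VN M m, rhoV M m σ (rhoV M m σ⁻¹ x) = x := by
    intro x
    rw [← Module.End.mul_apply, ← map_mul, mul_inv_cancel, map_one, Module.End.one_apply]
  rw [TV_eq_frob M m ℓ hℓ h A hA σ hσ, TV_eq_frob M m ℓ hℓ h A hA σ hσ, hadd_l, hadd_r,
    tvadj_nsmul_left w hadd_l hpow hm, tvadj_nsmul_right w hadd_r hpow hm]
  have h1 : w (rhoV M m σ y) z = w y (rhoV M m σ⁻¹ z) ^ ℓ := by
    conv_lhs => rw [← hinv z]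
    rw [hgal, hfr]
  have h2 : w (rhoV M m σ⁻¹ y) z ^ ℓ = w y (rhoV M m σ z) := by
    rw [← hfr, ← hgal, hinv]
  rw [h1, h2, mul_comm]

end Fermat.Agent.S41.WP
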